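/-
S56 / [GW-DUAL], cell [D3] (helper22): finiteness of `W^G / p`, abstract form.

`G` acts on `W`, `U ⊴ G` of finite index, `W^U ≃ B` (via an injective `Θ : B →+ W` with range `W^U`)
where `B / p B` and `B[p]` are finite.  Then every `p`-torsion quotient of `W^G` is finite
(`s56gdl_fin_of_inv`).  Prefix `s56gdl_`.
-/
import Mathlib

set_option autoImplicit false
set_option linter.unusedSectionVars false

namespace Fermat.Agent.S56

/-- A subgroup `N` has finite relative index in `A` as soon as some map from `A` to a finite type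
separates the cosets of `N`. -/
theorem s56gdl_relIndex_ne_zero {W : Type*} [AddCommGroup W] (N A : AddSubgroup W)
    {F : Type*} [Finite F] (Ψ : ↥A → F) (hΨ : ∀ a b : ↥A, Ψ a = Ψ b → (a : W) - b ∈ N) :
    N.relIndex A ≠ 0 := by
  have hinj : Function.Injective
      (fun x : ↥A ⧸ N.addSubgroupOf A => Ψ (Quotient.out x)) := by
    intro x y hxy
    have h := hΨ _ _ hxy
    rw [← QuotientAddGroup.out_eq' x, ← QuotientAddGroup.out_eq' y]
    rw [eq_comm, QuotientAddGroup.eq, AddSubgroup.mem_addSubgroupOf]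
    have h2 : ((-(y.out) + x.out : ↥A) : W) = ((x.out : ↥A) : W) - ((y.out : ↥A) : W) := by
      push_cast
      abel
    rw [h2]
    exact h
  haveI : Finite (↥A ⧸ N.addSubgroupOf A) := Finite.of_injective _ hinj
  rw [AddSubgroup.relIndex, AddSubgroup.index]
  exact Nat.card_pos.ne'

/-- **Finiteness of `p`-torsion quotients of the invariants.** -/
theorem s56gdl_fin_of_inv {G W B Z : Type*} [Group G] [AddCommGroup W] [DistribMulAction G W]
    [AddCommGroup B] [AddCommGroup Z]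
    (U : Subgroup G) [hUn : U.Normal] [Finite (G ⧸ U)] (p : ℕ)
    (Θ : B →+ W) (hΘ : Function.Injective Θ)
    (hrange : ∀ w : W, (∀ u ∈ U, u • w = w) ↔ ∃ b, Θ b = w)
    (S : Set B) (hS : S.Finite) (hS' : ∀ b : B, ∃ s ∈ S, ∃ c : B, b = s + p • c)
    (hT : {b : B | p • b = 0}.Finite)
    (H : AddSubgroup W) (hH : ∀ w : W, w ∈ H ↔ ∀ g : G, g • w = w)
    (f : ↥H →+ Z) (hf : Function.Surjective f) (hpZ : ∀ z : Z, p • z = 0) :
    Finite Z := by
  classical
  set pH : AddSubgroup W := H.map (nsmulAddMonoidHom p) with hpH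
  set K₁ : AddSubgroup W := H ⊓ (Θ.range.map (nsmulAddMonoidHom p)) with hK₁
  have hHU : ∀ t ∈ H, ∃ b, Θ b = t := fun t ht => (hrange t).1 (fun u _ => (hH t).1 ht u)
  have hpHK : pH ≤ K₁ := by
    rintro _ ⟨t, ht, rfl⟩
    refine ⟨H.nsmul_mem ht p, ?_⟩
    obtain ⟨b, hb⟩ := hHU t ht
    exact ⟨t, ⟨b, hb⟩, rfl⟩
  have hKH : K₁ ≤ H := inf_le_left
  haveI : Finite ↥S := hS.to_subtype
  haveI : Finite ↥{b : B | p • b = 0} := hT.to_subtype
  -- Step 1
  have h1 : K₁.relIndex H ≠ 0 := by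
    have hex : ∀ t : ↥H, ∃ s : ↥S, ∃ b c : B, Θ b = t ∧ b = s + p • c := by
      intro t
      obtain ⟨b, hb⟩ := hHU t t.2
      obtain ⟨s, hs, c, hc⟩ := hS' b
      exact ⟨⟨s, hs⟩, b, c, hb, hc⟩
    choose Ψ₁ hΨ₁ using hex
    refine s56gdl_relIndex_ne_zero K₁ H Ψ₁ (fun a b hab => ?_)
    obtain ⟨ba, ca, hba, hca⟩ := hΨ₁ a
    obtain ⟨bb, cb, hbb, hcb⟩ := hΨ₁ b
    refine ⟨H.sub_mem a.2 b.2, Θ (ca - cb), ⟨_, rfl⟩, ?_⟩
    show p • Θ (ca - cb) = (a : W) - b
    rw [← hba, ← hbb, ← map_sub, ← map_nsmul, hca, hcb, hab]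
    congr 1
    rw [smul_sub]
    abel
  -- Step 2
  have hUfix : ∀ (g : G) (w : W), (∀ u ∈ U, u • w = w) → ∀ u ∈ U, u • (g • w) = g • w := by
    intro g w hw u hu
    have h2 : g⁻¹ * u * g ∈ U := by
      have := hUn.conj_mem u hu g⁻¹
      rwa [inv_inv] at this
    have h3 : u * g = g * (g⁻¹ * u * g) := by group
    rw [← mul_smul, h3, mul_smul, hw _ h2]
  have h2 : pH.relIndex K₁ ≠ 0 := by
    have hexc : ∀ k : ↥K₁, ∃ c : B, p • Θ c = (k : W) := by
      intro k
      obtain ⟨_, ⟨c, rfl⟩, hc⟩ := k.2.2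
      exact ⟨c, hc⟩
    choose cc hcc using hexc
    have hexb : ∀ (k : ↥K₁) (x : G ⧸ U), ∃ b : ↥{b : B | p • b = 0},
        Θ (b : B) = (Quotient.out x) • Θ (cc k) - Θ (cc k) := by
      intro k x
      have hfix : ∀ u ∈ U, u • Θ (cc k) = Θ (cc k) := (hrange _).2 ⟨_, rfl⟩
      have hfix2 : ∀ u ∈ U, u • ((Quotient.out x) • Θ (cc k) - Θ (cc k)) =
          (Quotient.out x) • Θ (cc k) - Θ (cc k) := by
        intro u hu
        rw [smul_sub, hUfix _ _ hfix u hu, hfix u hu]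
      obtain ⟨b, hb⟩ := (hrange _).1 hfix2
      refine ⟨⟨b, ?_⟩, hb⟩
      show p • b = 0
      apply hΘ
      rw [map_nsmul, hb, map_zero, smul_sub, ← smul_comm (Quotient.out x) p, hcc k]
      have hkH : (k : W) ∈ H := hKH k.2
      rw [(hH _).1 hkH (Quotient.out x), sub_self]
    choose Ψ₂ hΨ₂ using hexb
    refine s56gdl_relIndex_ne_zero pH K₁ Ψ₂ (fun a b hab => ?_)
    set d : W := Θ (cc a) - Θ (cc b) with hd
    have hdU : ∀ u ∈ U, u • d = d := by
      intro u hu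
      rw [hd, smul_sub, (hrange _).2 ⟨_, rfl⟩ u hu, (hrange _).2 ⟨_, rfl⟩ u hu]
    have hdout : ∀ x : G ⧸ U, (Quotient.out x) • d = d := by
      intro x
      have e1 := hΨ₂ a x
      have e2 := hΨ₂ b x
      rw [hab] at e1
      have e3 := e1.symm.trans e2
      rw [hd, smul_sub]
      have : Quotient.out x • Θ (cc a) - Quotient.out x • Θ (cc b) - (Θ (cc a) - Θ (cc b)) = 0 := by
        have e4 := sub_eq_zero.2 e3
        rw [← e4]
        abel
      exact sub_eq_zero.1 this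
    have hdH : d ∈ H := by
      rw [hH]
      intro g
      obtain ⟨h, hh⟩ := QuotientGroup.mk_out_eq_mul U g
      have hg : g = Quotient.out (QuotientGroup.mk g : G ⧸ U) * (h : G)⁻¹ := by
        rw [hh]
        group
      rw [hg, mul_smul, hdU _ (U.inv_mem h.2), hdout]
    refine ⟨d, hdH, ?_⟩
    show p • d = (a : W) - b
    rw [hd, smul_sub, hcc a, hcc b]
  -- conclusion
  have h3 : pH.relIndex H ≠ 0 := by
    rw [← AddSubgroup.relIndex_mul_relIndex pH K₁ H hpHK hKH]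
    exact mul_ne_zero h2 h1
  haveI : Finite (↥H ⧸ pH.addSubgroupOf H) := by
    apply Nat.finite_of_card_ne_zero
    rw [AddSubgroup.relIndex, AddSubgroup.index] at h3
    exact h3
  have hker : pH.addSubgroupOf H ≤ f.ker := by
    intro x hx
    rw [AddSubgroup.mem_addSubgroupOf] at hx
    obtain ⟨t, ht, htx⟩ := hx
    have hx' : x = p • (⟨t, ht⟩ : ↥H) := Subtype.ext htx.symm
    rw [AddMonoidHom.mem_ker, hx', map_nsmul, hpZ]
  have hsurj : Function.Surjective (QuotientAddGroup.lift (pH.addSubgroupOf H) f hker) := by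
    intro z
    obtain ⟨t, rfl⟩ := hf z
    exact ⟨QuotientAddGroup.mk t, rfl⟩
  exact Finite.of_surjective _ hsurj

end Fermat.Agent.S56
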