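/-
S56 / [GW-DUAL], cell [D3] (helper22): finiteness of `p`-torsion quotients of `Hom_G(R, Ω)`.

`Q : LvQuot L Ω Γ X'` a finite quotient of `(G, Ω)` with `X' / p` and `X'[p]` finite, `R ≃ ℤⁿ` a
`G`-lattice fixed by `ker Q.q`.  Then every quotient of `Hom_G(R, Ω) = lvH0 (LvHom R Ω)` killed by
`p` is finite (`s56gdl_fin_hom`).  Prefix `s56gdl_`.
-/
import Mathlib
import Fermat.Agent.S55.Level.Finite
import Fermat.Agent.S55.Level.HomModule
import Fermat.Agent.S56.GW.Dual.D3.FinAbs

set_option autoImplicit false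
set_option linter.unusedSectionVars false

namespace Fermat.Agent.S56

open Fermat.Agent.S55

noncomputable section

/-- coset representatives mod `p` for a product -/
theorem s56gdl_pi_reps {X : Type*} [AddCommGroup X] (p n : ℕ) (S : Set X) (hS : S.Finite)
    (hS' : ∀ x : X, ∃ s ∈ S, ∃ c : X, x = s + p • c) :
    ∃ S' : Set (Fin n → X), S'.Finite ∧ ∀ b : Fin n → X, ∃ s ∈ S', ∃ c : Fin n → X,
      b = s + p • c := by
  refine ⟨{f : Fin n → X | ∀ i, f i ∈ S}, Set.Finite.pi' (fun _ => hS), fun b => ?_⟩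
  choose s hs c hc using fun i => hS' (b i)
  exact ⟨s, fun i => hs i, c, funext fun i => hc i⟩

/-- `p`-torsion of a product -/
theorem s56gdl_pi_tors {X : Type*} [AddCommGroup X] (p n : ℕ)
    (hT : {x : X | p • x = 0}.Finite) : {b : Fin n → X | p • b = 0}.Finite := by
  refine (Set.Finite.pi' (ι := Fin n) (t := fun _ => {x : X | p • x = 0}) (fun _ => hT)).subset ?_
  intro b hb i
  exact congrFun hb i

section theta

variable {Ω X' R : Type*} [AddCommGroup Ω] [AddCommGroup X'] [AddCommGroup R] {n : ℕ}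
  (e : R ≃+ (Fin n → ℤ)) (lam : X' →+ Ω)

/-- the homomorphism `R → Ω` with prescribed values on the basis -/
def s56gdl_theta : (Fin n → X') →+ LvHom R Ω where
  toFun x := LvHom.of
    { toFun := fun r => ∑ i, (e r i) • lam (x i)
      map_zero' := by simp
      map_add' := fun r r' => by
        simp only [map_add, Pi.add_apply, add_smul, Finset.sum_add_distrib] }
  map_zero' := by
    ext r
    show ∑ i, (e r i) • lam ((0 : Fin n → X') i) = 0
    simp
  map_add' x x' := by
    ext r
    show ∑ i, (e r i) • lam ((x + x') i) = ∑ i, (e r i) • lam (x i) + ∑ i, (e r i) • lam (x' i)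
    simp only [Pi.add_apply, map_add, smul_add, Finset.sum_add_distrib]

theorem s56gdl_theta_apply (x : Fin n → X') (r : R) :
    s56gdl_theta e lam x r = ∑ i, (e r i) • lam (x i) := rfl

theorem s56gdl_theta_basis (x : Fin n → X') (j : Fin n) :
    s56gdl_theta e lam x (e.symm (Pi.single j 1)) = lam (x j) := by
  classical
  rw [s56gdl_theta_apply, AddEquiv.apply_symm_apply, Finset.sum_eq_single j]
  · rw [Pi.single_eq_same, one_smul]
  · intro i _ hij
    rw [Pi.single_eq_of_ne hij, zero_smul]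
  · intro h
    exact absurd (Finset.mem_univ j) h

theorem s56gdl_theta_injective (hlam : Function.Injective lam) :
    Function.Injective (s56gdl_theta (R := R) e lam) := by
  intro x x' h
  funext j
  apply hlam
  rw [← s56gdl_theta_basis e lam x j, ← s56gdl_theta_basis e lam x' j, h]

/-- an additive map on `R ≃ ℤⁿ` is determined by its values on the basis -/
theorem s56gdl_hom_expand (w : R →+ Ω) (r : R) :
    w r = ∑ i, (e r i) • w (e.symm (Pi.single i 1)) := by
  classical
  have h1 : e r = ∑ i, (e r i) • (Pi.single i (1 : ℤ) : Fin n → ℤ) := by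
    funext j
    rw [Finset.sum_apply, Finset.sum_eq_single j]
    · rw [Pi.smul_apply, Pi.single_eq_same, smul_eq_mul, mul_one]
    · intro i _ hij
      rw [Pi.smul_apply, Pi.single_eq_of_ne hij.symm, smul_zero]
    · intro h
      exact absurd (Finset.mem_univ j) h
  have h2 : r = ∑ i, (e r i) • e.symm (Pi.single i (1 : ℤ)) := by
    apply e.injective
    rw [map_sum]
    simp only [map_zsmul, AddEquiv.apply_symm_apply]
    exact h1
  conv_lhs => rw [h2]
  rw [map_sum]
  simp only [map_zsmul]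

end theta

/-- **Finiteness of the `p`-torsion quotients of `Hom_G(R, Ω)`.** -/
theorem s56gdl_fin_hom {G : Type} [Group G] {L : LevelSys G} {Ω : Type} [AddCommGroup Ω]
    [DistribMulAction G Ω] {Γ : Type} [Group Γ] [Finite Γ] {X' : Type} [AddCommGroup X']
    [DistribMulAction Γ X'] (Q : LvQuot L Ω Γ X')
    {R : Type} [AddCommGroup R] [DistribMulAction G R]
    (hR : ∀ u ∈ Q.q.ker, ∀ r : R, u • r = r) {n : ℕ} (e : R ≃+ (Fin n → ℤ)) (p : ℕ)
    (S : Set X') (hS : S.Finite) (hS' : ∀ x : X', ∃ s ∈ S, ∃ c : X', x = s + p • c)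
    (hT : {x : X' | p • x = 0}.Finite)
    {Z : Type*} [AddCommGroup Z] (f : ↥(lvH0 (G := G) (LvHom R Ω)) →+ Z)
    (hf : Function.Surjective f) (hpZ : ∀ z : Z, p • z = 0) : Finite Z := by
  haveI : Finite (G ⧸ Q.q.ker) :=
    Finite.of_equiv Γ (QuotientGroup.quotientKerEquivOfSurjective Q.q Q.q_surj).symm.toEquiv
  obtain ⟨S', hS'fin, hS'rep⟩ := s56gdl_pi_reps p n S hS hS'
  have hfixlam : ∀ u ∈ Q.q.ker, ∀ x : X', u • Q.φ x = Q.φ x := by
    intro u hu x
    rw [← Q.equivariant, MonoidHom.mem_ker.1 hu, one_smul]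
  refine s56gdl_fin_of_inv (G := G) (W := LvHom R Ω) Q.q.ker p (s56gdl_theta e Q.φ)
    (s56gdl_theta_injective e Q.φ Q.φ_inj) (fun w => ⟨fun hw => ?_, ?_⟩) S' hS'fin hS'rep
    (s56gdl_pi_tors p n hT) (lvH0 (G := G) (LvHom R Ω)) (fun _ => Iff.rfl) f hf hpZ
  · -- invariants under the kernel come from `X'`
    have hval : ∀ r : R, ∀ u ∈ Q.q.ker, u • w r = w r := by
      intro r u hu
      have h1 := congrArg (fun ψ : LvHom R Ω => ψ (u • r)) (hw u hu)
      simp only [LvHom.smul_apply, inv_smul_smul] at h1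
      rw [hR u hu r] at h1
      exact h1
    choose b hb using fun i : Fin n => Q.range_eq (w (e.symm (Pi.single i 1))) (hval _)
    refine ⟨b, ?_⟩
    ext r
    rw [s56gdl_theta_apply]
    have h2 := s56gdl_hom_expand e (LvHom.toHom w) r
    simp only [LvHom.toHom_apply] at h2
    rw [h2]
    exact Finset.sum_congr rfl (fun i _ => by rw [hb i])
  · rintro ⟨b, rfl⟩ u hu
    ext r
    rw [LvHom.smul_apply, hR u⁻¹ (Q.q.ker.inv_mem hu) r, s56gdl_theta_apply, Finset.smul_sum]
    refine Finset.sum_congr rfl (fun i _ => ?_)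
    rw [smul_comm, hfixlam u hu]

end

end Fermat.Agent.S56
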