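/-
S56 / [GW-DUAL], cell [D3] (helper22): `H¹(G, ℤ[T]) = 0` in level cohomology, for a finite `Δ`-set
`T` on which `G` acts through `π : G →* Δ` (any level system `L` on `G`).

A level-constant 1-cocycle restricted to a stabiliser and evaluated at the fixed point is a
homomorphism to `ℤ` killing a normal subgroup of finite index, hence zero; Shapiro vanishing
(`LvFun.isCoboundary_of_stabilizer`) does the rest.  Prefix `s56gdl_`.
-/
import Mathlib
import Fermat.Agent.S55.Level.HomModule
import Fermat.Agent.S55.Trans.Levels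

set_option autoImplicit false
set_option linter.unusedSectionVars false

open CategoryTheory groupCohomology

namespace Fermat.Agent.S56

open Fermat.Agent.S55

noncomputable section

/-- `ℤ` with the trivial action of `G`. -/
def s56gdl_Zt (G : Type) : Type := ℤ

instance s56gdl_Zt.instAddCommGroup (G : Type) : AddCommGroup (s56gdl_Zt G) :=
  inferInstanceAs (AddCommGroup ℤ)

instance s56gdl_Zt.instDistribMulAction (G : Type) [Group G] :
    DistribMulAction G (s56gdl_Zt G) where
  smul _ z := z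
  one_smul _ := rfl
  mul_smul _ _ _ := rfl
  smul_zero _ := rfl
  smul_add _ _ _ := rfl

theorem s56gdl_Zt_smul {G : Type} [Group G] (g : G) (z : s56gdl_Zt G) : g • z = z := rfl

section perm

variable {G : Type} [Group G] (L : LevelSys G) {Δ : Type} [Group Δ] (π : G →* Δ)
  (T : Type) [MulAction Δ T]

/-- the permutation module `ℤ[T]` as a `G`-module through `π` -/
abbrev s56gdl_Perm : Type := tl_Act (Rep.res π (Rep.ofMulAction ℤ Δ T))

/-- coefficients -/
def s56gdl_cf (v : s56gdl_Perm π T) (t : T) : ℤ := (show MonoidAlgebra ℤ T from v).coeff t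

theorem s56gdl_cf_smul (g : G) (v : s56gdl_Perm π T) (t : T) :
    s56gdl_cf π T (g • v) t = s56gdl_cf π T v ((π g)⁻¹ • t) :=
  Representation.coeff_ofMulAction (π g) (show MonoidAlgebra ℤ T from v) t

theorem s56gdl_cf_add (v w : s56gdl_Perm π T) (t : T) :
    s56gdl_cf π T (v + w) t = s56gdl_cf π T v t + s56gdl_cf π T w t := rfl

theorem s56gdl_cf_zero (t : T) : s56gdl_cf π T 0 t = 0 := rfl

theorem s56gdl_cf_ext {v w : s56gdl_Perm π T} (h : ∀ t, s56gdl_cf π T v t = s56gdl_cf π T w t) :
    v = w := by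
  apply MonoidAlgebra.coeff_injective (R := ℤ) (M := T)
  exact Finsupp.ext h

/-- **A level-constant 1-cocycle with values in a permutation lattice is a coboundary.** -/
theorem s56gdl_perm_coboundary [Finite T] (c : G → s56gdl_Perm π T) (hc : IsCocycle₁ c)
    (hlc : L.IsLC1 c) : ∃ x : s56gdl_Perm π T, ∀ g : G, c g = g • x - x := by
  classical
  letI : MulAction G T := MulAction.compHom T π
  have hsm : ∀ (g : G) (t : T), g • t = π g • t := fun _ _ => rfl
  -- the cocycle in `LvFun T ℤ`
  set c' : G → LvFun T (s56gdl_Zt G) := fun g => LvFun.of (fun t => s56gdl_cf π T (c g) t) with hc'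
  have hcoc : ∀ (g h : G) (t : T),
      s56gdl_cf π T (c (g * h)) t = s56gdl_cf π T (c h) ((π g)⁻¹ • t) + s56gdl_cf π T (c g) t := by
    intro g h t
    rw [hc g h, s56gdl_cf_add, s56gdl_cf_smul]
  have hc'coc : IsCocycle₁ c' := by
    intro g h
    ext t
    show s56gdl_cf π T (c (g * h)) t = s56gdl_cf π T (c h) (g⁻¹ • t) + s56gdl_cf π T (c g) t
    rw [hcoc g h t, hsm, map_inv]
  -- a normal level
  obtain ⟨U, hU, hUn, hUc⟩ := hlc.exists_normal
  have hfin : U.FiniteIndex := L.finiteIndex U hU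
  have hc1 : c 1 = 0 := map_one_of_isCocycle₁ hc
  have hcU : ∀ u ∈ U, c u = 0 := by
    intro u hu
    have := hUc 1 u hu
    rw [one_mul, hc1] at this
    exact this
  have hstab : ∀ t : T, ∃ x : s56gdl_Zt G, ∀ n : G, n • t = t → c' n t = n • x - x := by
    intro t
    refine ⟨0, fun n hn => ?_⟩
    rw [smul_zero, sub_zero]
    show s56gdl_cf π T (c n) t = 0
    have hn' : (π n)⁻¹ • t = t := by
      rw [inv_smul_eq_iff]
      exact hn.symm
    have hpow : ∀ j : ℕ, s56gdl_cf π T (c (n ^ j)) t = j * s56gdl_cf π T (c n) t := by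
      intro j
      induction j with
      | zero => rw [pow_zero, hc1, s56gdl_cf_zero, Nat.cast_zero, zero_mul]
      | succ j ih =>
        rw [pow_succ', hcoc, hn', ih]
        push_cast
        ring
    have hk : n ^ U.index ∈ U := Subgroup.pow_index_mem U n
    have h0 := hpow U.index
    rw [hcU _ hk, s56gdl_cf_zero] at h0
    have hne : (U.index : ℤ) ≠ 0 := by
      exact_mod_cast hfin.index_ne_zero
    exact (mul_eq_zero.1 h0.symm).resolve_left hne
  obtain ⟨b, hb⟩ := LvFun.isCoboundary_of_stabilizer c' hc'coc hstab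
  -- back to `ℤ[T]`
  haveI : Fintype T := Fintype.ofFinite T
  refine ⟨(MonoidAlgebra.ofCoeff (Finsupp.equivFunOnFinite.symm (fun t => (b t : ℤ))) :
    MonoidAlgebra ℤ T), fun g => ?_⟩
  apply s56gdl_cf_ext
  intro t
  have h1 := congrArg (fun f : LvFun T (s56gdl_Zt G) => f t) (hb g)
  have h2 : s56gdl_cf π T (c g) t = b (g⁻¹ • t) - b t := h1
  rw [h2]
  have h3 : ∀ (v w : s56gdl_Perm π T) (t : T),
      s56gdl_cf π T (v - w) t = s56gdl_cf π T v t - s56gdl_cf π T w t := fun _ _ _ => rfl
  rw [h3, s56gdl_cf_smul, hsm, map_inv]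
  rfl

/-- **`H¹(G, ℤ[T]) = 0`** in level cohomology. -/
theorem s56gdl_perm_H1 [Finite T] (z : lvH1 L (s56gdl_Perm π T)) : z = 0 := by
  obtain ⟨c, rfl⟩ := lvH1mk_surjective z
  rw [lvH1mk_eq_zero_iff]
  obtain ⟨x, hx⟩ := s56gdl_perm_coboundary L π T (c : G → s56gdl_Perm π T) c.2.1 c.2.2
  refine ⟨x, ?_⟩
  funext g
  rw [lvD0_apply, hx g]

end perm

end

end Fermat.Agent.S56
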