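/-
S56 / [GW-DUAL], cell [D3] (helper22): RIGHT NON-DEGENERACY OF THE LOCAL PAIRING, abstract form.

Setting: a group `G` with a level system `L`, a smooth module `Ω` (think `G = G_q`,
`Ω = (ℚ̄_q)ˣ`), a cofinal family of finite levels `ℓ` of `(G, L, Ω)`, each carrying a `p`-class
module `P_ℓ` on `C_ℓ ≃ Ω^{ker}` (`s56gdl_Lvl`), and a map `inv` on `lvH2 L Ω` which on classes inflated
from the level `ℓ` is the invariant of `P_ℓ`.  For a short exact sequence `0 → R → F → A → 0` of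
`G`-modules (`R` a lattice fixed by a level, `lvH1 L F = 0`, `p A = 0`):

`s56gdl_right` : for `0 ≠ y ∈ lvH1 L A` there is a `G`-homomorphism `t : R → Ω` with
`inv (t_* (δ¹ y)) ≠ 0`.

Proof: `δ¹ y ≠ 0` is inflated from a finite level, its `p`-primary component there is detected by
Tate–Nakayama (`tnb_TNR`), and the pairing at the finite level is `inv ∘ t_*` after inflation.
Prefix `s56gdl_`.
-/
import Mathlib
import Fermat.Agent.S55.Level.LES
import Fermat.Agent.S55.Level.Bridge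
import Fermat.Agent.S55.Level.HomModule
import Fermat.Agent.S55.Dual.TNBridge
import Fermat.Agent.S55.Dual.HomBridge
import Fermat.Agent.S55.FinGrp.H2Torsion
import Fermat.Agent.S55.Trans.Levels
import Fermat.Agent.S55.Trans.Sha1Finite

set_option autoImplicit false
set_option linter.unusedSectionVars false

open CategoryTheory groupCohomology

namespace Fermat.Agent.S56

open Fermat.Agent.S55

noncomputable section

/-- A finite level of `(G, L, Ω)` carrying a `p`-class module on (a model of) the fixed points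
of its kernel. -/
structure s56gdl_Lvl (p : ℕ) {G : Type} [Group G] (L : LevelSys G) (Ω : Type) [AddCommGroup Ω]
    [DistribMulAction G Ω] where
  Γ : Type
  [grp : Group Γ]
  [fin : Finite Γ]
  C : Rep.{0} ℤ Γ
  P : PClassModule p C
  Q : LvQuot L Ω Γ (tl_Act C)

attribute [instance] s56gdl_Lvl.grp s56gdl_Lvl.fin

section descend

variable {G : Type} [Group G] {Γ : Type} [Group Γ] (q : G →* Γ) (hq : Function.Surjective q)
  (R : Type) [AddCommGroup R] [DistribMulAction G R]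

/-- the action of `G` on `R` as a homomorphism to `ℤ`-linear endomorphisms -/
def s56gdl_actHom : G →* (R →ₗ[ℤ] R) where
  toFun g := (DistribSMul.toAddMonoidHom R g).toIntLinearMap
  map_one' := by
    ext r
    show (1 : G) • r = r
    rw [one_smul]
  map_mul' g h := by
    ext r
    show (g * h) • r = g • (h • r)
    rw [mul_smul]

@[simp] theorem s56gdl_actHom_apply (g : G) (r : R) : s56gdl_actHom R g r = g • r := rfl

variable (hker : ∀ u ∈ q.ker, ∀ r : R, u • r = r)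

include hker in
theorem s56gdl_ker_le : q.ker ≤ (s56gdl_actHom R).ker := by
  intro u hu
  rw [MonoidHom.mem_ker]
  ext r
  exact hker u hu r

/-- the representation of the finite quotient `Γ` on `R` -/
def s56gdl_descRho : Representation ℤ Γ R :=
  (QuotientGroup.lift q.ker (s56gdl_actHom R) (s56gdl_ker_le q R hker)).comp
    (QuotientGroup.quotientKerEquivOfSurjective q hq).symm.toMonoidHom

theorem s56gdl_descRho_q (g : G) (r : R) : s56gdl_descRho q hq R hker (q g) r = g • r := by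
  have h1 : (QuotientGroup.quotientKerEquivOfSurjective q hq).symm (q g)
      = (g : G ⧸ q.ker) := by
    rw [MulEquiv.symm_apply_eq]; rfl
  simp only [s56gdl_descRho, MonoidHom.comp_apply, MulEquiv.coe_toMonoidHom, h1]
  rfl

/-- `R` as a representation of the finite quotient `Γ` -/
def s56gdl_descRep : Rep.{0} ℤ Γ := Rep.of (s56gdl_descRho q hq R hker)

/-- the identity `R → R`, from the `Γ`-module to the `G`-module -/
def s56gdl_descφ : tl_Act (s56gdl_descRep q hq R hker) →+ R := AddMonoidHom.id R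

theorem s56gdl_descφ_smul (g : G) (r : tl_Act (s56gdl_descRep q hq R hker)) :
    s56gdl_descφ q hq R hker (q g • r) = g • s56gdl_descφ q hq R hker r :=
  s56gdl_descRho_q q hq R hker g r

/-- **the finite quotient of `(G, L, R)`** along `q`. -/
def s56gdl_descQ (L : LevelSys G) (hlev : ∃ U ∈ L.levels, U ≤ q.ker) :
    LvQuot L R Γ (tl_Act (s56gdl_descRep q hq R hker)) where
  q := q
  q_surj := hq
  level := hlev
  φ := s56gdl_descφ q hq R hker
  φ_inj := fun _ _ h => h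
  equivariant := s56gdl_descφ_smul q hq R hker
  range_eq := fun x _ => ⟨x, rfl⟩

end descend

section main

variable {p : ℕ} [Fact p.Prime] {G : Type} [Group G] (L : LevelSys G)
  {Ω : Type} [AddCommGroup Ω] [DistribMulAction G Ω]
  {R F A : Type} [AddCommGroup R] [DistribMulAction G R] [AddCommGroup F] [DistribMulAction G F]
  [AddCommGroup A] [DistribMulAction G A]

/-- the coefficient morphism `R → Ω` of an invariant homomorphism -/
def s56gdl_push (t : ↥(lvH0 (G := G) (LvHom R Ω))) : LvMor L R L Ω :=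
  LvMor.ofCoeff L (LvHom.toHom t.1) (fun g r => (LvHom.mem_lvH0_iff t.1).1 t.2 g r)

theorem s56gdl_nsmul_lvH1_eq_zero (hpA : ∀ a : A, p • a = 0) (y : lvH1 L A) : p • y = 0 := by
  obtain ⟨c, rfl⟩ := lvH1mk_surjective y
  rw [← map_nsmul]
  have : p • c = 0 := by
    apply Subtype.ext
    funext g
    show p • (c : G → A) g = 0
    exact hpA _
  rw [this, map_zero]

/-- **Right non-degeneracy, abstract form.** -/
theorem s56gdl_right (E : LvSES G R F A) (hF : L.IsSmooth F)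
    (hH1F : ∀ z : lvH1 L F, z = 0) (hpA : ∀ a : A, p • a = 0)
    (hRlat : ∃ n : ℕ, Nonempty (R ≃+ (Fin n → ℤ)))
    (hRtriv : ∃ U ∈ L.levels, ∀ u ∈ U, ∀ r : R, u • r = r)
    {ι : Type} (lv : ι → s56gdl_Lvl p L Ω)
    (hcof : ∀ U ∈ L.levels, ∃ i, (lv i).Q.q.ker ≤ U)
    (inv : lvH2 L Ω → tt_QZ)
    (hinv : ∀ (i : ι) (w : lvH2 (LevelSys.trivial (lv i).Γ) (tl_Act (lv i).C)),
      tt_IsPPrimary p w →
      inv ((lv i).Q.mor.H2 w) = (lv i).P.invTop
        (lvH2Equiv (lv i).C (tl_sf_actEquiv (lv i).C) (tl_sf_actEquiv_smul (lv i).C) w))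
    (y : lvH1 L A) (hy : y ≠ 0) :
    ∃ t : ↥(lvH0 (G := G) (LvHom R Ω)), inv ((s56gdl_push L t).H2 (E.δ1 L hF y)) ≠ 0 := by
  classical
  have hp : p.Prime := Fact.out
  -- `z = δ¹ y ≠ 0`, `p z = 0`
  set z : lvH2 L R := E.δ1 L hF y with hz
  have hz0 : z ≠ 0 := by
    intro h
    obtain ⟨w, hw⟩ := (E.exact_H1C L hF y).1 h
    rw [hH1F w, map_zero] at hw
    exact hy hw.symm
  have hpz : p • z = 0 := by
    rw [hz, ← map_nsmul, s56gdl_nsmul_lvH1_eq_zero L hpA y, map_zero]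
  -- a finite level
  obtain ⟨U₀, hU₀, hU₀R⟩ := hRtriv
  have hRsm : L.IsSmooth R := fun r => ⟨U₀, hU₀, fun u hu => hU₀R u hu r⟩
  obtain ⟨W, hW, hWU₀, -, hWz⟩ := lvH2_exists_level hRsm z hU₀
  obtain ⟨i, hi⟩ := hcof W hW
  set ℓ := lv i with hℓ
  have hker : ∀ u ∈ ℓ.Q.q.ker, ∀ r : R, u • r = r := fun u hu r => hU₀R u (hWU₀ (hi hu)) r
  set Rr : Rep.{0} ℤ ℓ.Γ := s56gdl_descRep ℓ.Q.q ℓ.Q.q_surj R hker with hRr
  set QR : LvQuot L R ℓ.Γ (tl_Act Rr) :=
    s56gdl_descQ ℓ.Q.q ℓ.Q.q_surj R hker L ℓ.Q.level with hQR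
  obtain ⟨zℓ, hzℓ⟩ := hWz QR hi
  -- the `p`-primary component
  set N := Nat.card ℓ.Γ with hN
  have hN0 : N ≠ 0 := Nat.card_pos.ne'
  set m := ordCompl[p] N with hm
  have hcop : Nat.Coprime p m := Nat.coprime_ordCompl hp hN0
  obtain ⟨v, -, hv⟩ := Nat.exists_mul_mod_eq_one_of_coprime hcop.symm hp.one_lt
  -- `v * m ≡ 1 mod p`
  have hvm : ∃ k : ℕ, m * v = 1 + p * k := by
    refine ⟨m * v / p, ?_⟩
    have := Nat.div_add_mod (m * v) p
    rw [hv] at this
    omega
  obtain ⟨k, hk⟩ := hvm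
  set zℓ' : lvH2 (LevelSys.trivial ℓ.Γ) (tl_Act Rr) := (m * v) • zℓ with hzℓ'
  have hinfl : QR.mor.H2 zℓ' = z := by
    rw [hzℓ', map_nsmul, hzℓ, hk, add_smul, one_smul, mul_comm p k, mul_smul, hpz, smul_zero,
      add_zero]
  set eR := tl_sf_actEquiv Rr with heR
  have heRs := tl_sf_actEquiv_smul Rr
  set zM : H2 Rr := lvH2Equiv Rr eR heRs zℓ' with hzM
  have hzM0 : zM ≠ 0 := by
    intro h
    have h1 : zℓ' = 0 := by
      have := (lvH2Equiv Rr eR heRs).injective (h.trans (map_zero (lvH2Equiv Rr eR heRs)).symm)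
      exact this
    rw [h1, map_zero] at hinfl
    exact hz0 hinfl.symm
  have hzMp : tt_IsPPrimary p zM := by
    refine ⟨N.factorization p, ?_⟩
    have h1 : (p ^ N.factorization p) • zM = v • (N • (lvH2Equiv Rr eR heRs zℓ)) := by
      rw [hzM, hzℓ', map_nsmul, ← mul_smul, ← mul_smul]
      congr 1
      have := Nat.ordProj_mul_ordCompl_eq_self N p
      rw [← hm] at this
      calc p ^ N.factorization p * (m * v) = (p ^ N.factorization p * m) * v := by ring
        _ = N * v := by rw [this]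
        _ = v * N := by ring
    rw [h1, hN, h2_card_smul_eq_zero, smul_zero]
  -- Tate–Nakayama
  have hlat : ld_IsLattice Rr := hRlat
  obtain ⟨φ, hφ⟩ : ∃ φ : Rr ⟶ ℓ.C, ℓ.P.pairing φ zM ≠ 0 := by
    by_contra hno
    push Not at hno
    exact hzM0 (tnb_TNR ℓ.P Rr hlat zM hzMp hno)
  -- the homomorphism `t`
  have htinv : LvHom.of ((ℓ.Q.φ).comp ((hmb_homAdd φ).comp
      (show R →+ tl_Act Rr from AddMonoidHom.id R))) ∈ lvH0 (G := G) (LvHom R Ω) := by
    rw [LvHom.mem_lvH0_iff]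
    intro g r
    show ℓ.Q.φ (φ.hom (g • r)) = g • ℓ.Q.φ (φ.hom r)
    rw [← ℓ.Q.equivariant]
    congr 1
    have h1 : (g • r : R) = Rr.ρ (ℓ.Q.q g) r := (s56gdl_descRho_q ℓ.Q.q ℓ.Q.q_surj R hker g r).symm
    rw [h1]
    exact Rep.hom_comm_apply φ (ℓ.Q.q g) r
  refine ⟨⟨_, htinv⟩, ?_⟩
  -- the coefficient morphism at the finite level
  set mφ : LvMor (LevelSys.trivial ℓ.Γ) (tl_Act Rr) (LevelSys.trivial ℓ.Γ) (tl_Act ℓ.C) :=
    LvMor.ofCoeff _ (hmb_homAdd φ) (hmb_homAdd_smul φ) with hmφ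
  have hcomm : (s56gdl_push L ⟨_, htinv⟩).H2 (QR.mor.H2 zℓ') = ℓ.Q.mor.H2 (mφ.H2 zℓ') := by
    obtain ⟨c, hc⟩ := lvH2mk_surjective zℓ'
    rw [← hc]
    rfl
  have hwp : tt_IsPPrimary p (mφ.H2 zℓ') := by
    obtain ⟨j, hj⟩ := hzMp
    refine ⟨j, ?_⟩
    have h1 : (p ^ j) • zℓ' = 0 := by
      apply (lvH2Equiv Rr eR heRs).injective
      rw [map_nsmul, map_zero]
      exact hj
    rw [← map_nsmul, h1, map_zero]
  rw [← hinfl, hcomm, hinv i _ hwp]
  have hmap := lvH2Equiv_map Rr ℓ.C eR heRs (tl_sf_actEquiv ℓ.C) (tl_sf_actEquiv_smul ℓ.C)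
    mφ φ (fun _ => rfl) zℓ'
  rw [hmap]
  exact hφ

end main

end

end Fermat.Agent.S56
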