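import Fermat.Agent.S56.GW.Seams
import Fermat.Agent.S55.DualTwistHyp

/-!
# S56, [GW-DUAL] cell D3 (c): perfectness by counting (prefix `s56gdlc_`)

* `s56gdlc_left_of_right` (Mathlib only): a pairing `C × C' → k` which is non-degenerate on the
  right, with `dim C ≤ dim C'`, is non-degenerate on the left.
* `s56gdlc_evIso M : M ≅ M''` (`M' = M^*(1)`; the two twists cancel), hence an injection of the
  continuous local classes of `M` into those of `M''` (`s56gdlc_finrank_le_ddual`).
* `s56gdlc_left`: right non-degeneracy of local pairings for `M` and for `M'` + finiteness of the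
  continuous local classes of `M` give finiteness for `M'`, equality of dimensions and left
  non-degeneracy for `M`.
* `s56gdlc_RightSys`, `s56gdlc_toDualSys`, `s56gdlc_dual_of_right`: the structure
  `s56gw_DualSys` without the fields `left`, `fin'`, and the proof that it suffices.
-/

set_option autoImplicit false

open CategoryTheory Module groupCohomology ExtCitation

namespace Fermat.Agent.S56

local notation "GQ" => (AlgebraicClosure ℚ ≃ₐ[ℚ] AlgebraicClosure ℚ)

section LinAlg

variable {k : Type*} [Field k] {X X' : Type*} [AddCommGroup X] [Module k X]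
  [AddCommGroup X'] [Module k X']

/-- Right non-degeneracy bounds the dimension of the right factor. -/
theorem s56gdlc_finrank_le (B : X →ₗ[k] X' →ₗ[k] k) (C : Submodule k X) (C' : Submodule k X')
    [FiniteDimensional k C]
    (hright : ∀ y ∈ C', (∀ x ∈ C, B x y = 0) → y = 0) :
    FiniteDimensional k C' ∧ finrank k C' ≤ finrank k C := by
  let β : C' →ₗ[k] C →ₗ[k] k := (B.compl₁₂ C.subtype C'.subtype).flip
  have hinj : Function.Injective β := by
    rw [← LinearMap.ker_eq_bot, LinearMap.ker_eq_bot']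
    intro y hy
    have := hright y.1 y.2 (fun x hx => by
      have h := LinearMap.congr_fun hy ⟨x, hx⟩
      simpa [β] using h)
    exact Subtype.ext this
  have hfin : FiniteDimensional k C' := FiniteDimensional.of_injective β hinj
  refine ⟨hfin, ?_⟩
  calc finrank k C' ≤ finrank k (C →ₗ[k] k) := LinearMap.finrank_le_finrank_of_injective hinj
    _ = finrank k C := Subspace.dual_finrank_eq

/-- **Perfectness by counting**: a pairing which is non-degenerate on the right, between spaces
with `dim C ≤ dim C'`, is non-degenerate on the left. -/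
theorem s56gdlc_left_of_right (B : X →ₗ[k] X' →ₗ[k] k) (C : Submodule k X)
    (C' : Submodule k X') [FiniteDimensional k C]
    (hright : ∀ y ∈ C', (∀ x ∈ C, B x y = 0) → y = 0)
    (hdim : ∀ _ : FiniteDimensional k C', finrank k C ≤ finrank k C') :
    ∀ x ∈ C, (∀ y ∈ C', B x y = 0) → x = 0 := by
  obtain ⟨hfin, hle⟩ := s56gdlc_finrank_le B C C' hright
  have heq : finrank k C' = finrank k C := le_antisymm hle (hdim hfin)
  let β : C' →ₗ[k] C →ₗ[k] k := (B.compl₁₂ C.subtype C'.subtype).flip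
  have hinj : Function.Injective β := by
    rw [← LinearMap.ker_eq_bot, LinearMap.ker_eq_bot']
    intro y hy
    have := hright y.1 y.2 (fun x hx => by
      have h := LinearMap.congr_fun hy ⟨x, hx⟩
      simpa [β] using h)
    exact Subtype.ext this
  have hsurj : Function.Surjective β := by
    refine (LinearMap.injective_iff_surjective_of_finrank_eq_finrank ?_).1 hinj
    rw [heq]; exact Subspace.dual_finrank_eq.symm
  intro x hx h
  have hx0 : (⟨x, hx⟩ : C) = 0 := by
    rw [← Module.forall_dual_apply_eq_zero_iff k]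
    intro φ
    obtain ⟨y, rfl⟩ := hsurj φ
    have := h y.1 y.2
    simpa [β] using this
  exact congrArg Subtype.val hx0

end LinAlg

section Ev

variable {p : ℕ} [Fact p.Prime] (M : Rep.{0} (ZMod p) GQ) [FiniteDimensional (ZMod p) M]

omit [FiniteDimensional (ZMod p) M] in
/-- The evaluation map `M → M''` is `G_ℚ`-equivariant (the two twists cancel). -/
theorem s56gdlc_ev_comm (g : GQ) (m : M.V) :
    (s56gw_dual (s56gw_dual M)).ρ g (Module.Dual.eval (ZMod p) M.V m)
      = Module.Dual.eval (ZMod p) M.V (M.ρ g m) := by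
  rw [Rep.dualTwist_ρ_apply]
  refine LinearMap.ext fun f => ?_
  simp only [LinearMap.smul_apply, LinearMap.comp_apply, Module.Dual.eval_apply]
  rw [Rep.dualTwist_ρ_apply]
  simp only [LinearMap.smul_apply, LinearMap.comp_apply, inv_inv, map_inv, smul_eq_mul]
  rw [← mul_assoc, Units.mul_inv, one_mul]

/-- `M ≃ M''` as representations. -/
noncomputable def s56gdlc_evEquiv : M.ρ.Equiv (s56gw_dual (s56gw_dual M)).ρ :=
  Representation.Equiv.mk (Module.evalEquiv (ZMod p) M.V) (by
    intro g
    refine LinearMap.ext fun m => ?_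
    exact (s56gdlc_ev_comm M g m).symm)

/-- `M ≅ M''` in `Rep (ZMod p) G_ℚ`. -/
noncomputable def s56gdlc_evIso : M ≅ s56gw_dual (s56gw_dual M) :=
  Rep.mkIso (s56gdlc_evEquiv M)

end Ev

section Gen

variable {k G : Type} [CommRing k] [Group G] {A B : Rep.{0} k G} (ψ : A ⟶ B)

theorem s56gdlc_coeff_mk (c : cocycles₁ A) :
    (map (MonoidHom.id G) ψ 1).hom ((H1π A).hom c)
      = (H1π B).hom ((mapCocycles₁ (MonoidHom.id G) ψ).hom c) :=
  H1π_comp_map_apply (MonoidHom.id G) ψ c

theorem s56gdlc_coeff_coe (c : cocycles₁ A) :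
    ((mapCocycles₁ (MonoidHom.id G) ψ).hom c : G → B.V) = (fun a => ψ.hom a) ∘ (c : G → A.V) :=
  rfl

/-- A morphism of coefficients maps continuous classes to continuous classes. -/
theorem s56gdlc_coeff_mem (r : G →* GQ) (x : H1 A) (hx : x ∈ continuousH1 r A) :
    (map (MonoidHom.id G) ψ 1).hom x ∈ continuousH1 r B := by
  obtain ⟨c, hc, rfl⟩ := (mem_continuousH1_iff r A x).1 hx
  rw [s56gdlc_coeff_mk]
  refine H1π_mem_continuousH1 r B ?_
  rw [s56gdlc_coeff_coe]
  exact hc.comp _

/-- An isomorphism of coefficients is injective on `H¹`. -/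
theorem s56gdlc_coeff_inj (e : A ≅ B) :
    Function.Injective (map (MonoidHom.id G) e.hom 1).hom :=
  ((functor k G 1).mapIso e).toLinearEquiv.injective

end Gen

section Final

variable {p : ℕ} [Fact p.Prime] (M : Rep.{0} (ZMod p) GQ) [FiniteDimensional (ZMod p) M]

/-- The map on local `H¹` induced by `M ≅ M''`. -/
noncomputable def s56gdlc_evH1 (q : Nat.Primes) :
    H1 (s56gw_res M q) →ₗ[ZMod p] H1 (s56gw_res (s56gw_dual (s56gw_dual M)) q) :=
  (map (MonoidHom.id (primeLocalGaloisGroup q))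
    ((Rep.resFunctor (primeLocalToGlobal q)).mapIso (s56gdlc_evIso M)).hom 1).hom

theorem s56gdlc_evH1_injective (q : Nat.Primes) : Function.Injective (s56gdlc_evH1 M q) :=
  s56gdlc_coeff_inj ((Rep.resFunctor (primeLocalToGlobal q)).mapIso (s56gdlc_evIso M))

theorem s56gdlc_evH1_mem (q : Nat.Primes) (x : H1 (s56gw_res M q)) (hx : x ∈ s56gw_cH1 M q) :
    s56gdlc_evH1 M q x ∈ s56gw_cH1 (s56gw_dual (s56gw_dual M)) q :=
  s56gdlc_coeff_mem ((Rep.resFunctor (primeLocalToGlobal q)).mapIso (s56gdlc_evIso M)).hom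
    (primeLocalToGlobal q) x hx

/-- `dim H¹_cont(G_q, M) ≤ dim H¹_cont(G_q, M'')`. -/
theorem s56gdlc_finrank_le_ddual (q : Nat.Primes)
    [FiniteDimensional (ZMod p) (s56gw_cH1 (s56gw_dual (s56gw_dual M)) q)] :
    finrank (ZMod p) (s56gw_cH1 M q)
      ≤ finrank (ZMod p) (s56gw_cH1 (s56gw_dual (s56gw_dual M)) q) := by
  let j : ↥(s56gw_cH1 M q) →ₗ[ZMod p] ↥(s56gw_cH1 (s56gw_dual (s56gw_dual M)) q) :=
    ((s56gdlc_evH1 M q).comp (s56gw_cH1 M q).subtype).codRestrict _
      (fun x => s56gdlc_evH1_mem M q x.1 x.2)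
  refine LinearMap.finrank_le_finrank_of_injective (f := j) ?_
  intro x y hxy
  have h := congrArg Subtype.val hxy
  exact Subtype.ext (s56gdlc_evH1_injective M q h)

/-- **[D3] (c)**: right non-degeneracy for `M` and for `M'`, and finiteness of the continuous
local classes of `M`, give finiteness for `M'`, equality of dimensions and left
non-degeneracy for `M`. -/
theorem s56gdlc_left (q : Nat.Primes)
    (B : H1 (s56gw_res M q) →ₗ[ZMod p] H1 (s56gw_res (s56gw_dual M) q) →ₗ[ZMod p] ZMod p)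
    (B' : H1 (s56gw_res (s56gw_dual M) q) →ₗ[ZMod p]
      H1 (s56gw_res (s56gw_dual (s56gw_dual M)) q) →ₗ[ZMod p] ZMod p)
    [hfin : FiniteDimensional (ZMod p) (s56gw_cH1 M q)]
    (hright : ∀ y ∈ s56gw_cH1 (s56gw_dual M) q, (∀ x ∈ s56gw_cH1 M q, B x y = 0) → y = 0)
    (hright' : ∀ z ∈ s56gw_cH1 (s56gw_dual (s56gw_dual M)) q,
      (∀ y ∈ s56gw_cH1 (s56gw_dual M) q, B' y z = 0) → z = 0) :
    FiniteDimensional (ZMod p) (s56gw_cH1 (s56gw_dual M) q) ∧
    finrank (ZMod p) (s56gw_cH1 (s56gw_dual M) q) = finrank (ZMod p) (s56gw_cH1 M q) ∧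
    ∀ x ∈ s56gw_cH1 M q, (∀ y ∈ s56gw_cH1 (s56gw_dual M) q, B x y = 0) → x = 0 := by
  obtain ⟨hfin', hle'⟩ := s56gdlc_finrank_le B _ _ hright
  obtain ⟨hfin'', hle''⟩ := s56gdlc_finrank_le B' _ _ hright'
  have hle := s56gdlc_finrank_le_ddual M q
  refine ⟨hfin', le_antisymm hle' (hle.trans hle''), ?_⟩
  exact s56gdlc_left_of_right B _ _ hright (fun _ => hle.trans hle'')

/-- `s56gw_DualSys` without the fields `left` and `fin'`. -/
structure s56gdlc_RightSys (p : ℕ) [Fact p.Prime] (M : Rep.{0} (ZMod p) GQ) where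
  /-- the local pairings -/
  B : ∀ q : Nat.Primes,
    H1 (s56gw_res M q) →ₗ[ZMod p] H1 (s56gw_res (s56gw_dual M) q) →ₗ[ZMod p] ZMod p
  /-- finiteness of the continuous local classes -/
  fin : ∀ q, FiniteDimensional (ZMod p) (s56gw_cH1 M q)
  /-- right non-degeneracy on continuous classes -/
  right : ∀ q, ∀ y ∈ s56gw_cH1 (s56gw_dual M) q,
    (∀ x ∈ s56gw_cH1 M q, B q x y = 0) → y = 0
  /-- global reciprocity -/
  recip : ∀ S : Finset Nat.Primes, pPrime p ∈ S → s56gw_UnrOut S M →
    ∀ x ∈ continuousH1S S M, ∀ y ∈ continuousH1S S (s56gw_dual M),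
      ∑ q ∈ S, B q (s56gw_loc M q x) (s56gw_loc (s56gw_dual M) q y) = 0
  /-- middle exactness of Poitou–Tate -/
  middle : ∀ S : Finset Nat.Primes, pPrime p ∈ S → s56gw_UnrOut S M →
    ∀ ξ : ∀ q : Nat.Primes, H1 (s56gw_res M q), (∀ q ∈ S, ξ q ∈ s56gw_cH1 M q) →
      (∀ y ∈ continuousH1S S (s56gw_dual M),
        ∑ q ∈ S, B q (ξ q) (s56gw_loc (s56gw_dual M) q y) = 0) →
      ∃ x ∈ continuousH1S S M, ∀ q ∈ S, s56gw_loc M q x = ξ q

/-- A right system for `M` and one for `M'` give a full dual system for `M`. -/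
noncomputable def s56gdlc_toDualSys (R : s56gdlc_RightSys p M)
    (R' : s56gdlc_RightSys p (s56gw_dual M)) : s56gw_DualSys p M where
  B := R.B
  fin := R.fin
  fin' := fun q =>
    haveI := R.fin q
    (s56gdlc_left M q (R.B q) (R'.B q) (R.right q) (R'.right q)).1
  left := fun q =>
    haveI := R.fin q
    (s56gdlc_left M q (R.B q) (R'.B q) (R.right q) (R'.right q)).2.2
  right := R.right
  recip := R.recip
  middle := R.middle

/-- **[GW-DUAL] from right systems**: it suffices to construct `B`, `fin`, `right`, `recip`,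
`middle` for every finite smooth `M`. -/
theorem s56gdlc_dual_of_right
    (h : ∀ (p : ℕ) [Fact p.Prime], p ≠ 2 →
      ∀ (M : Rep.{0} (ZMod p) GQ) [FiniteDimensional (ZMod p) M],
        s56gw_Smooth M → Nonempty (s56gdlc_RightSys p M)) : s56gw_Dual_stmt := by
  intro p _ hp2 M _ hsm
  obtain ⟨R⟩ := h p hp2 M hsm
  obtain ⟨R'⟩ := h p hp2 (s56gw_dual M) (Fermat.Agent.S55.tl_dualTwist_smooth M hsm)
  exact ⟨s56gdlc_toDualSys M R R'⟩

end Final

end Fermat.Agent.S56
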