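/-
S56 / [GW-DUAL], cell [D3] (helper22): RIGHT NON-DEGENERACY of the local pairing `s56gd_Bq`
(the second half of `s56gd_LDR_stmt`, Dual/Seams2.lean), for every finite smooth `M`, every `q` and
every local invariant `I : s56gd_LocInv p q`.

`s56gdl_right_main : (∀ x, s56gd_Bq M hsm q I x y = 0) → y = 0`.

Instance of the abstract `s56gdl_right` (D3/RightAbs.lean) for the lattice sequence
`0 → R → F → M' → 0` over `G_q`, the plain levels `s56gd_Fld` with the local `p`-class modules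
`s56gd_Pq`, and `H¹(G_q, F) = 0` (`s56gdl_perm_H1`, D3/PermVanish.lean).  Prefix `s56gdl_`.
-/
import Fermat.Agent.S56.GW.Dual.Seams2
import Fermat.Agent.S56.GW.Dual.D3.RightAbs
import Fermat.Agent.S56.GW.Dual.D3.PermVanish

set_option autoImplicit false
set_option linter.unusedSectionVars false

open CategoryTheory groupCohomology ExtCitation

namespace Fermat.Agent.S56

open Fermat.Agent.S55

local notation "Qbar" => AlgebraicClosure ℚ
local notation "GQ" => (AlgebraicClosure ℚ ≃ₐ[ℚ] AlgebraicClosure ℚ)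

noncomputable section

variable {p : ℕ} [Fact p.Prime]

/-- the plain level `a` as a finite level of `(G_q, (ℚ̄_q)ˣ)` with its local `p`-class module -/
abbrev s56gdl_lv (p : ℕ) [Fact p.Prime] (q : Nat.Primes) (a : s56gd_Fld) :
    s56gdl_Lvl p (tl_levelsLoc q) (tl_locUnits q) where
  Γ := ↥(s56gd_D q a)
  C := s56gd_X q a
  P := s56gd_Pq q a p
  Q := s56gd_QX q a

/-- the plain levels are cofinal among the levels of `G_q` -/
theorem s56gdl_cofinal (q : Nat.Primes) (U : Subgroup (primeLocalGaloisGroup q))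
    (hU : U ∈ (tl_levelsLoc q).levels) : ∃ a : s56gd_Fld, (s56gd_QX q a).q.ker ≤ U := by
  obtain ⟨V, ⟨F, hF, rfl⟩, rfl⟩ := hU
  have hnQ : Normal ℚ Qbar :=
    @IsAlgClosure.normal ℚ Qbar _ _ _ ⟨inferInstance, AlgebraicClosure.isAlgebraic ℚ⟩
  have hnorm : Normal ℚ (IntermediateField.normalClosure ℚ F Qbar) :=
    normalClosure.normal ℚ F Qbar
  refine ⟨⟨IntermediateField.normalClosure ℚ F Qbar,
    normalClosure.is_finiteDimensional ℚ F Qbar, hnorm⟩, fun τ hτ => ?_⟩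
  rw [Subgroup.mem_comap]
  have h1 := (s56gd_mem_ker_locq q _ τ).1 hτ
  exact IntermediateField.fixingSubgroup_antitone (IntermediateField.le_normalClosure F) h1

/-- the invariant, extended by zero -/
def s56gdl_inv0 {q : Nat.Primes} (I : s56gd_LocInv p q) (w : lvH2 (tl_levelsLoc q) (tl_locUnits q)) :
    tt_QZ := by
  classical
  exact if h : w ∈ fd_pPrimary p (lvH2 (tl_levelsLoc q) (tl_locUnits q)) then I.inv ⟨w, h⟩ else 0

theorem s56gdl_inv0_of_mem {q : Nat.Primes} (I : s56gd_LocInv p q)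
    (w : lvH2 (tl_levelsLoc q) (tl_locUnits q))
    (h : w ∈ fd_pPrimary p (lvH2 (tl_levelsLoc q) (tl_locUnits q))) :
    s56gdl_inv0 I w = I.inv ⟨w, h⟩ := by
  unfold s56gdl_inv0
  rw [dif_pos h]

/-- the extended invariant on classes inflated from a plain level -/
theorem s56gdl_inv0_spec {q : Nat.Primes} (I : s56gd_LocInv p q) (a : s56gd_Fld)
    (w : lvH2 (LevelSys.trivial ↥(s56gd_D q a)) (tl_Act (s56gd_X q a)))
    (hw : tt_IsPPrimary p w) :
    s56gdl_inv0 I ((s56gd_QX q a).mor.H2 w) = (s56gd_Pq q a p).invTop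
      (lvH2Equiv (s56gd_X q a) (tl_sf_actEquiv (s56gd_X q a))
        (tl_sf_actEquiv_smul (s56gd_X q a)) w) := by
  have hw' : tt_IsPPrimary p (lvH2Equiv (s56gd_X q a) (tl_sf_actEquiv (s56gd_X q a))
      (tl_sf_actEquiv_smul (s56gd_X q a)) w) := by
    obtain ⟨j, hj⟩ := hw
    exact ⟨j, by rw [← map_nsmul, hj, map_zero]⟩
  have hmem : (s56gd_QX q a).mor.H2 w ∈
      fd_pPrimary p (lvH2 (tl_levelsLoc q) (tl_locUnits q)) := by
    obtain ⟨j, hj⟩ := hw
    exact ⟨j, by rw [← map_nsmul, hj, map_zero]⟩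
  have hinfl : s56gd_inflX q a (lvH2Equiv (s56gd_X q a) (tl_sf_actEquiv (s56gd_X q a))
      (tl_sf_actEquiv_smul (s56gd_X q a)) w) = (s56gd_QX q a).mor.H2 w := by
    show (s56gd_QX q a).mor.H2 ((lvH2Equiv (s56gd_X q a) (tl_sf_actEquiv (s56gd_X q a))
      (tl_sf_actEquiv_smul (s56gd_X q a))).symm _) = _
    rw [AddEquiv.symm_apply_apply]
  have hspec := I.spec a _ hw' (by rw [hinfl]; exact hmem)
  rw [s56gdl_inv0_of_mem I _ hmem, ← hspec]
  congr 1
  exact Subtype.ext hinfl.symm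

variable (M : Rep.{0} (ZMod p) GQ) [FiniteDimensional (ZMod p) M]
  (hsm : s56gw_Smooth M) (q : Nat.Primes)

/-- **[D3] right non-degeneracy of `B_q`.** -/
theorem s56gdl_right_main (I : s56gd_LocInv p q) (y : s56gd_Hq (s56gw_dual M) q)
    (h : ∀ x, s56gd_Bq M hsm q I x y = 0) : y = 0 := by
  by_contra hy
  haveI := dm_finite_A M (s56gd_A M hsm) (s56gd_e M hsm)
  have hRtriv : ∃ U ∈ (tl_levelsLoc q).levels, ∀ u ∈ U, ∀ r : s56gd_Rl M hsm q, u • r = r := by
    refine ⟨(s56gd_K0 M hsm).L.fixingSubgroup.comap (primeLocalToGlobal q),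
      ⟨_, ⟨(s56gd_K0 M hsm).L, inferInstance, rfl⟩, rfl⟩, fun u hu r => ?_⟩
    have h1 : (s56gd_pi0 M hsm) (primeLocalToGlobal q u) = 1 := by
      rw [← MonoidHom.mem_ker]
      show primeLocalToGlobal q u ∈ (AlgEquiv.restrictNormalHom (s56gd_K0 M hsm).L).ker
      rw [tl_ker_restrictNormalHom]
      exact hu
    rw [dm_Yl_smul, h1, map_one]
    rfl
  obtain ⟨t, ht⟩ := s56gdl_right (p := p) (tl_levelsLoc q) (s56gd_Lloc M hsm q)
    (s56gd_smooth_Fl M hsm q)
    (fun z => s56gdl_perm_H1 (tl_levelsLoc q)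
      ((s56gd_pi0 M hsm).comp (primeLocalToGlobal q)) (la_X (s56gd_A M hsm)) z)
    (s56gd_nsmul_act (s56gw_res (s56gw_dual M) q))
    (la_free_R (s56gd_A M hsm)) hRtriv (s56gdl_lv p q) (s56gdl_cofinal q)
    (s56gdl_inv0 I)
    (fun a w hw => s56gdl_inv0_spec I a w hw)
    y hy
  apply ht
  have hmem := s56gd_star_d1_mem M hsm q t y
  have h1 : (s56gdl_push (tl_levelsLoc q) t).H2
      ((s56gd_Lloc M hsm q).δ1 (tl_levelsLoc q) (s56gd_smooth_Fl M hsm q) y) =
      s56gd_star M hsm q t (s56gd_d1 M hsm q y) := rfl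
  rw [h1, s56gdl_inv0_of_mem I _ hmem, ← s56gd_Bq_spec M hsm q I t y]
  exact h _

end

end Fermat.Agent.S56
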