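/-
S56 / [GW-DUAL], cell [D3] (helper22): FINITENESS of the local `H¹(G_q, M)` in level cohomology
(the first half of `s56gd_LDR_stmt`, Dual/Seams2.lean) and the seam itself:

  `s56gdl_fin_main : Finite (s56gd_Hq M q)`,   `s56gdl_main : s56gd_LDR_stmt`.

`δ⁰ : Hom_{G_q}(R, (ℚ̄_q)ˣ) → H¹(G_q, M)` is onto and `H¹` is killed by `p`; `Hom_{G_q}(R, (ℚ̄_q)ˣ)`
is `Hom_D(R, (K0·ℚ_q)ˣ)`, and `(K0·ℚ_q)ˣ / p`, `μ_p(K0·ℚ_q)` are finite (`piq_index_pow`).
Prefix `s56gdl_`.
-/
import Fermat.Agent.S56.GW.Dual.Seams2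
import Fermat.Agent.S56.GW.Dual.D3.FinHom
import Fermat.Agent.S56.GW.Dual.D3.Right
import Fermat.Agent.S55.LocalQ.PowerIndexQ

set_option autoImplicit false
set_option linter.unusedSectionVars false

open CategoryTheory groupCohomology ExtCitation

namespace Fermat.Agent.S56

open Fermat.Agent.S55

local notation "Qbar" => AlgebraicClosure ℚ
local notation "GQ" => (AlgebraicClosure ℚ ≃ₐ[ℚ] AlgebraicClosure ℚ)

noncomputable section

/-- coset representatives modulo `p`-th powers, additively -/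
theorem s56gdl_units_reps {A : Type*} [CommGroup A] (p : ℕ)
    (h : (powMonoidHom p : A →* A).range.index ≠ 0) :
    ∃ S : Set (Additive A), S.Finite ∧
      ∀ x : Additive A, ∃ s ∈ S, ∃ c : Additive A, x = s + p • c := by
  haveI : Finite (A ⧸ (powMonoidHom p : A →* A).range) := by
    apply Nat.finite_of_card_ne_zero
    exact h
  refine ⟨Set.range (fun y : A ⧸ (powMonoidHom p : A →* A).range => Additive.ofMul y.out),
    Set.finite_range _, fun x => ?_⟩
  obtain ⟨⟨_, c, rfl⟩, hc⟩ :=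
    QuotientGroup.mk_out_eq_mul (powMonoidHom p : A →* A).range (Additive.toMul x)
  refine ⟨_, ⟨QuotientGroup.mk (Additive.toMul x), rfl⟩, Additive.ofMul c⁻¹, ?_⟩
  apply Additive.toMul.injective
  show Additive.toMul x = (QuotientGroup.mk (Additive.toMul x) :
    A ⧸ (powMonoidHom p : A →* A).range).out * (c⁻¹) ^ p
  rw [hc]
  simp only [powMonoidHom_apply, inv_pow, mul_inv_cancel_right]

/-- the `p`-torsion of the units of a field is finite -/
theorem s56gdl_units_tors (K : Type*) [Field K] (p : ℕ) [NeZero p] :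
    {x : Additive Kˣ | p • x = 0}.Finite := by
  have h0 : Finite ↥(rootsOfUnity p K) := inferInstance
  have h1 : ((rootsOfUnity p K : Subgroup Kˣ) : Set Kˣ).Finite := Set.finite_coe_iff.mp h0
  refine (h1.image Additive.ofMul).subset ?_
  intro x hx
  refine ⟨Additive.toMul x, ?_, rfl⟩
  show Additive.toMul x ∈ rootsOfUnity p K
  rw [mem_rootsOfUnity]
  exact congrArg Additive.toMul hx

variable {p : ℕ} [Fact p.Prime] (M : Rep.{0} (ZMod p) GQ) [FiniteDimensional (ZMod p) M]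

/-- **[D3] finiteness of the local `H¹`.** -/
theorem s56gdl_fin_main (hsm : s56gw_Smooth M) (q : Nat.Primes) : Finite (s56gd_Hq M q) := by
  haveI := dm_finite_A M (s56gd_A M hsm) (s56gd_e M hsm)
  haveI : Fact (q : ℕ).Prime := ⟨q.2⟩
  haveI : NeZero p := ⟨(Fact.out : p.Prime).ne_zero⟩
  obtain ⟨n, ⟨e⟩⟩ := la_free_R (s56gd_A M hsm)
  obtain ⟨S, hS, hS'⟩ := s56gdl_units_reps (A := (↥(il_Lq (q : ℕ) (s56gd_K0 M hsm).L))ˣ) p
    (piq_index_pow (il_Lq (q : ℕ) (s56gd_K0 M hsm).L) p).2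
  have hR : ∀ u ∈ (s56gd_QX q (s56gd_K0 M hsm)).q.ker, ∀ r : s56gd_Rl M hsm q, u • r = r := by
    intro u hu r
    have h1 : (s56gd_pi0 M hsm) (primeLocalToGlobal q u) = 1 := by
      have h2 := congrArg Subtype.val (MonoidHom.mem_ker.1 hu)
      exact h2
    rw [dm_Yl_smul, h1, map_one]
    rfl
  exact s56gdl_fin_hom (s56gd_QX q (s56gd_K0 M hsm)) hR e p S hS hS'
    (s56gdl_units_tors (↥(il_Lq (q : ℕ) (s56gd_K0 M hsm).L)) p)
    (s56gd_d0 M hsm q) (s56gd_d0_surjective M hsm q) (s56gd_nsmul_H1N M q)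

/-- **SEAM [D3] v2 (`s56gd_LDR_stmt`): finiteness of the local `H¹` and right non-degeneracy of
the local pairing.** -/
theorem s56gdl_main : s56gd_LDR_stmt := by
  intro p _ _ M _ hsm q I
  exact ⟨s56gdl_fin_main M hsm q, fun y hy => s56gdl_right_main M hsm q I y hy⟩

end

end Fermat.Agent.S56
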